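import Fermat.Agent.Root.SummaryLamLeung
import Mathlib.RingTheory.RootsOfUnity.Complex

/-!
# Disjoint covering systems

Summing `z ^ x` over `x` modulo the product of the moduli, for `z = 1` and for a primitive root of
unity of the order of a maximal modulus.
-/

set_option autoImplicit false

noncomputable section

open Finset

namespace FA.DisjointCovering

variable {ι : Type*} [Fintype ι]

/-- Every integer lies in exactly one class. -/
def IsDisjointCovering (a : ι → ℤ) (m : ι → ℕ) : Prop :=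
  (∀ i, 0 < m i) ∧ ∀ x : ℤ, ∃! i, (m i : ℤ) ∣ x - a i

variable {a : ι → ℤ} {m : ι → ℕ}

/-- The least natural number in a class. -/
def base (a : ι → ℤ) (m : ι → ℕ) (i : ι) : ℕ := (a i % m i).toNat

omit [Fintype ι] in
theorem filter_range_eq {L : ℕ} (hL : ∀ i, m i ∣ L) (h : IsDisjointCovering a m) (i : ι) :
    ((range L).filter fun x : ℕ => (m i : ℤ) ∣ (x : ℤ) - a i) =
      (range (L / m i)).image fun t => base a m i + m i * t := by
  have hm := h.1 i
  obtain ⟨q, hq⟩ := hL i
  have hqm : L / m i = q := by rw [hq, Nat.mul_div_cancel_left q hm]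
  have hm' : ((m i : ℤ)) ≠ 0 := by exact_mod_cast hm.ne'
  have hr : (base a m i : ℤ) = a i % m i := Int.toNat_of_nonneg (Int.emod_nonneg _ hm')
  have hlt : base a m i < m i := by
    have := Int.emod_lt_of_pos (a i) (show (0 : ℤ) < m i by exact_mod_cast hm)
    omega
  ext x
  simp only [mem_filter, mem_range, mem_image]
  constructor
  · rintro ⟨hx, hd⟩
    have e : ((x % m i : ℕ) : ℤ) = base a m i := by
      rw [hr]
      push_cast
      exact Int.emod_eq_emod_iff_emod_sub_eq_zero.2 (Int.emod_eq_zero_of_dvd hd)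
    refine ⟨x / m i, ?_, ?_⟩
    · rw [hqm, Nat.div_lt_iff_lt_mul hm]
      exact hx.trans_eq (by rw [hq]; ring)
    · rw [← show x % m i = base a m i by exact_mod_cast e]
      exact Nat.mod_add_div x (m i)
  · rintro ⟨t, ht, rfl⟩
    rw [hqm] at ht
    refine ⟨?_, ?_⟩
    · rw [hq]
      calc base a m i + m i * t < m i + m i * t := by omega
        _ = m i * (t + 1) := by ring
        _ ≤ m i * q := Nat.mul_le_mul_left _ ht
    · refine ⟨t - a i / m i, ?_⟩
      push_cast
      rw [hr]
      linear_combination (Int.emod_add_mul_ediv (a i) (m i))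

/-- The sum of `z ^ x` over a period, sorted into the classes. -/
theorem sum_pow_eq {L : ℕ} (hL : ∀ i, m i ∣ L) (h : IsDisjointCovering a m) (z : ℂ) :
    ∑ x ∈ range L, z ^ x = ∑ i, z ^ base a m i * ∑ t ∈ range (L / m i), (z ^ m i) ^ t := by
  classical
  calc ∑ x ∈ range L, z ^ x
      = ∑ x ∈ range L, ∑ i, if (m i : ℤ) ∣ (x : ℤ) - a i then z ^ x else 0 := by
        refine sum_congr rfl fun x _ => ?_
        obtain ⟨i, hi, hu⟩ := h.2 x
        rw [sum_eq_single i (fun j _ hj => if_neg fun hd => hj (hu j hd))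
          (fun hn => absurd (mem_univ i) hn), if_pos hi]
    _ = ∑ i, ∑ x ∈ (range L).filter (fun x : ℕ => (m i : ℤ) ∣ (x : ℤ) - a i), z ^ x := by
        rw [sum_comm]
        exact sum_congr rfl fun i _ => (sum_filter _ _).symm
    _ = _ := by
        refine sum_congr rfl fun i _ => ?_
        rw [filter_range_eq hL h i, sum_image fun t _ t' _ e => ?_, mul_sum]
        · exact sum_congr rfl fun t _ => by rw [pow_add, pow_mul]
        · exact Nat.eq_of_mul_eq_mul_left (h.1 i) (Nat.add_left_cancel e)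

/-- **The reciprocals of the moduli sum to `1`.** -/
theorem sum_one_div_eq_one (h : IsDisjointCovering a m) : ∑ i, (1 : ℚ) / m i = 1 := by
  set L := ∏ i, m i with hLdef
  have hL : ∀ i, m i ∣ L := fun i => dvd_prod_of_mem m (mem_univ i)
  have hs := sum_pow_eq hL h 1
  simp only [one_pow, sum_const, card_range, nsmul_one, one_mul] at hs
  have hnat : L = ∑ i, L / m i := by exact_mod_cast hs
  have hL0 : (L : ℚ) ≠ 0 := by
    exact_mod_cast (Finset.prod_pos fun i _ => h.1 i).ne'
  apply mul_left_cancel₀ hL0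
  rw [mul_sum, mul_one]
  conv_rhs => rw [hnat, Nat.cast_sum]
  refine sum_congr rfl fun i _ => ?_
  rw [Nat.cast_div (hL i) (by exact_mod_cast (h.1 i).ne'), mul_one_div]

/-- **Newman**: the classes of a maximal modulus give a vanishing sum of roots of unity. -/
theorem card_mem_closure (h : IsDisjointCovering a m) {N : ℕ} (hN : 1 < N) (i0 : ι) (hi0 : m i0 = N)
    (hmax : ∀ i, N ∣ m i → m i = N) :
    #(univ.filter fun i => m i = N) ∈ AddSubmonoid.closure (N.primeFactors : Set ℕ) := by
  classical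
  set L := ∏ i, m i with hLdef
  have hL : ∀ i, m i ∣ L := fun i => dvd_prod_of_mem m (mem_univ i)
  obtain ⟨ζ, hζ⟩ : ∃ ζ : ℂ, IsPrimitiveRoot ζ N :=
    ⟨_, Complex.isPrimitiveRoot_exp N (by omega)⟩
  have hNL : N ∣ L := hi0 ▸ hL i0
  have hζL : ζ ^ L = 1 := (hζ.pow_eq_one_iff_dvd L).2 hNL
  have hne : ζ ≠ 1 := hζ.ne_one hN
  have hs := sum_pow_eq hL h ζ
  rw [geom_sum_eq hne, hζL, sub_self, zero_div,
    ← sum_filter_of_ne (p := fun i => m i = N) (fun i _ hne0 => ?_)] at hs
  · rw [sum_congr rfl fun i hi => show ζ ^ base a m i * ∑ t ∈ range (L / m i), (ζ ^ m i) ^ t =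
        ζ ^ base a m i * ((L / N : ℕ) : ℂ) by
      rw [(mem_filter.1 hi).2, hζ.pow_eq_one]
      simp, ← sum_mul, eq_comm, mul_eq_zero] at hs
    have hLN : ((L / N : ℕ) : ℂ) ≠ 0 := by
      exact_mod_cast (Nat.div_pos (Nat.le_of_dvd (Finset.prod_pos fun i _ => h.1 i) hNL)
        (by omega)).ne'
    refine (FA.Summary.lam_leung (show 0 < N by omega) _).1
      ⟨(univ.filter fun i => m i = N).1.map fun i => ζ ^ base a m i, fun z hz => ?_,
        hs.resolve_right hLN, ?_⟩
    · obtain ⟨i, -, rfl⟩ := Multiset.mem_map.1 hz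
      rw [← pow_mul, mul_comm, pow_mul, hζ.pow_eq_one, one_pow]
    · rw [Multiset.card_map, card_val]
  · by_contra hiN
    have h1 : ζ ^ m i ≠ 1 := fun e => hiN (hmax i ((hζ.pow_eq_one_iff_dvd _).1 e))
    refine hne0 ?_
    rw [geom_sum_eq h1, ← pow_mul, Nat.mul_div_cancel' (hL i), hζL, sub_self, zero_div, mul_zero]

theorem minFac_le_of_mem_closure {N w : ℕ}
    (hw : w ∈ AddSubmonoid.closure (N.primeFactors : Set ℕ)) :
    w = 0 ∨ N.minFac ≤ w := by
  induction hw using AddSubmonoid.closure_induction with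
  | mem x hx =>
    obtain ⟨hp, hd, -⟩ := Nat.mem_primeFactors.1 hx
    exact Or.inr (Nat.minFac_le_of_dvd hp.two_le hd)
  | zero => exact Or.inl rfl
  | add x y _ _ hx hy => omega

/-- A maximal modulus occurs at least as often as its least prime. -/
theorem minFac_le_card (h : IsDisjointCovering a m) {N : ℕ} (hN : 1 < N) (i0 : ι) (hi0 : m i0 = N)
    (hmax : ∀ i, N ∣ m i → m i = N) : N.minFac ≤ #(univ.filter fun i => m i = N) :=
  (minFac_le_of_mem_closure (card_mem_closure h hN i0 hi0 hmax)).resolve_left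
    (card_pos.2 ⟨i0, mem_filter.2 ⟨mem_univ _, hi0⟩⟩).ne'

/-- **Mirsky and Newman**: the moduli are not distinct. -/
theorem exists_equal_moduli (h : IsDisjointCovering a m) (hι : 2 ≤ Fintype.card ι) :
    ∃ i j, i ≠ j ∧ m i = m j := by
  classical
  obtain ⟨x, y, hxy⟩ := Fintype.one_lt_card_iff.1 hι
  obtain ⟨i0, -, hmax⟩ := univ.exists_max_image m ⟨x, mem_univ x⟩
  rcases lt_or_ge 1 (m i0) with hN | hN
  · have hc := minFac_le_card h hN i0 rfl fun i hd =>
      le_antisymm (hmax i (mem_univ i)) (Nat.le_of_dvd (h.1 i) hd)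
    have h2 : 2 ≤ (m i0).minFac := (Nat.minFac_prime hN.ne').two_le
    obtain ⟨i, hi, j, hj, hij⟩ := one_lt_card.1 (show 1 < _ from h2.trans hc)
    exact ⟨i, j, hij, (mem_filter.1 hi).2.trans (mem_filter.1 hj).2.symm⟩
  · refine ⟨x, y, hxy, ?_⟩
    have := hmax x (mem_univ x)
    have := hmax y (mem_univ y)
    have := h.1 x
    have := h.1 y
    omega

end FA.DisjointCovering

end
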